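/-
S18 / wave 4, core 2, leaf K2-CH (helper6): SATURATION.

Abstract setting (a subset of the fields of `H74.Setup`): `A` a valuation subring of `K`,
`O` a valuation subring of `F ⊇ K(x)` with `O ∩ K = A` (`MemHyp`), the Gauss property
(`GaussHyp`) and an orthonormal `K(x)`-basis `θ` of `F`.

`saturation`: an element of `O` which is integral over `K[x]` is integral over `A[x]`.

Mathlib + the landed `H85.GramUnit` (orthonormal families are linearly independent).
-/
import Mathlib
import Fermat.Agent.S18.H85.GramUnit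

set_option autoImplicit false

open IntermediateField Polynomial Module

noncomputable section

namespace Fermat.Agent.S18.H6

/-! ### Generic integrality transfer -/

/-- An element annihilated by a monic polynomial whose coefficients come from `R` is integral
over `R`. -/
theorem isIntegral_of_monic_of_coeff_mem {F R : Type*} [CommRing F] [Nontrivial F] [CommRing R]
    [Algebra R F]
    {y : F} (p : F[X]) (hp : p.Monic) (hy : p.eval y = 0)
    (hc : ∀ i, p.coeff i ∈ (algebraMap R F).range) : IsIntegral R y := by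
  have hl : p ∈ Polynomial.lifts (algebraMap R F) := by
    rw [Polynomial.lifts_iff_coeff_lifts]
    exact hc
  obtain ⟨q, hq, -, hm⟩ := Polynomial.lifts_and_degree_eq_and_monic hl hp
  exact ⟨q, hm, by rw [← Polynomial.eval_map, hq]; exact hy⟩

/-- Integrality only depends on the image of the base ring. -/
theorem isIntegral_of_range_le {F R₁ R₂ : Type*} [CommRing F] [Nontrivial F] [CommRing R₁]
    [CommRing R₂]
    [Algebra R₁ F] [Algebra R₂ F] (h : (algebraMap R₁ F).range ≤ (algebraMap R₂ F).range) {y : F}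
    (hy : IsIntegral R₁ y) : IsIntegral R₂ y := by
  obtain ⟨q, hq, hy⟩ := hy
  refine isIntegral_of_monic_of_coeff_mem (q.map (algebraMap R₁ F)) (hq.map _) ?_ fun i => ?_
  · rw [Polynomial.eval_map]
    exact hy
  · rw [Polynomial.coeff_map]
    exact h ⟨_, rfl⟩

/-! ### The Gauss hypotheses -/

section Gauss

variable {K : Type*} [Field K] (A : ValuationSubring K) {F : Type*} [Field F] [Algebra K F]
  (O : ValuationSubring F) (x : F)

/-- `Setup.mem_iff`: `O ∩ K = A`. -/
def MemHyp : Prop := ∀ a : K, algebraMap K F a ∈ O ↔ a ∈ A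

/-- `Setup.gauss`: a polynomial in `x` with coefficients in `A`, one of them a unit, is a unit
of `O`. -/
def GaussHyp : Prop :=
  ∀ p : K[X], (∀ i, p.coeff i ∈ A) → (∃ i, p.coeff i ≠ 0 ∧ (p.coeff i)⁻¹ ∈ A) →
    aeval x p ∈ O ∧ (aeval x p)⁻¹ ∈ O

variable {A O x}

theorem GaussHyp.x_mem (hg : GaussHyp A O x) : x ∈ O := by
  have h := (hg X (fun i => ?_) ⟨1, ?_, ?_⟩).1
  · simpa using h
  · rw [coeff_X]
    split_ifs
    exacts [A.one_mem, A.zero_mem]
  · simp
  · simp [A.one_mem]

/-- Polynomials in `x` with coefficients in `A` lie in `O`. -/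
theorem aeval_mem (hm : MemHyp A O) (hg : GaussHyp A O x) (p : K[X])
    (hp : ∀ i, p.coeff i ∈ A) : aeval x p ∈ O := by
  rw [aeval_eq_sum_range]
  refine O.toSubring.sum_mem fun i _ => ?_
  rw [Algebra.smul_def]
  exact O.mul_mem _ _ ((hm _).2 (hp i)) (O.pow_mem hg.x_mem i)

/-- `K[x] ∩ O = A[x]`: a polynomial in `x` which lies in `O` has coefficients in `A`. -/
theorem coeff_mem (hx : Transcendental K x) (hm : MemHyp A O) (hg : GaussHyp A O x)
    (p : K[X]) (hp : aeval x p ∈ O) (i : ℕ) : p.coeff i ∈ A := by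
  by_cases hp0 : p = 0
  · simp [hp0, A.zero_mem]
  obtain ⟨i₀, hi₀, hmax⟩ := p.support.exists_max_image (fun i => A.valuation (p.coeff i))
    (by simpa [Finset.nonempty_iff_ne_empty] using hp0)
  have hc0 : p.coeff i₀ ≠ 0 := Polynomial.mem_support_iff.mp hi₀
  have hv0 : A.valuation (p.coeff i₀) ≠ 0 := (Valuation.ne_zero_iff _).2 hc0
  have hcoef : ∀ j, (C (p.coeff i₀)⁻¹ * p).coeff j ∈ A := by
    intro j
    rw [coeff_C_mul]
    by_cases hj : j ∈ p.support
    · rw [← A.valuation_le_one_iff, map_mul, map_inv₀]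
      have h1 := hmax j hj
      calc (A.valuation (p.coeff i₀))⁻¹ * A.valuation (p.coeff j)
          ≤ (A.valuation (p.coeff i₀))⁻¹ * A.valuation (p.coeff i₀) :=
            mul_le_mul_right h1 _
        _ = 1 := inv_mul_cancel₀ hv0
    · rw [Polynomial.notMem_support_iff.mp hj, mul_zero]
      exact A.zero_mem
  have hunit : ∃ j, (C (p.coeff i₀)⁻¹ * p).coeff j ≠ 0 ∧ ((C (p.coeff i₀)⁻¹ * p).coeff j)⁻¹ ∈ A :=
    ⟨i₀, by
      rw [coeff_C_mul, inv_mul_cancel₀ hc0]
      exact ⟨one_ne_zero, by simp [A.one_mem]⟩⟩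
  obtain ⟨-, h2⟩ := hg _ hcoef hunit
  have hp'0 : C (p.coeff i₀)⁻¹ * p ≠ 0 :=
    mul_ne_zero (by simpa using hc0) hp0
  have hne : aeval x (C (p.coeff i₀)⁻¹ * p) ≠ 0 := fun h =>
    hp'0 ((transcendental_iff.mp hx) _ h)
  have hcO : algebraMap K F (p.coeff i₀) ∈ O := by
    have h3 : algebraMap K F (p.coeff i₀) = aeval x p * (aeval x (C (p.coeff i₀)⁻¹ * p))⁻¹ := by
      rw [map_mul, aeval_C] at hne ⊢
      have h4 : algebraMap K F (p.coeff i₀) ≠ 0 := by simpa using hc0
      have h5 : aeval x p ≠ 0 := right_ne_zero_of_mul hne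
      rw [map_inv₀]
      field_simp
    rw [h3]
    exact O.mul_mem _ _ hp h2
  have hcA := (hm _).1 hcO
  have h6 : p.coeff i = p.coeff i₀ * (C (p.coeff i₀)⁻¹ * p).coeff i := by
    rw [coeff_C_mul, ← mul_assoc, mul_inv_cancel₀ hc0, one_mul]
  rw [h6]
  exact A.mul_mem _ _ hcA (hcoef i)

end Gauss

/-! ### Integrality over the Gauss ring -/

section Comap

variable {E F : Type*} [Field E] [Field F] [Algebra E F] (O : ValuationSubring F)

/-- An element of `O` is integral over `O ∩ E` when `F/E` has an orthonormal basis. -/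
theorem isIntegral_comap [FiniteDimensional E F] (θ : Fin (finrank E F) → F)
    (hnt : ∃ e : E, algebraMap E F e ∉ O)
    (horth : ∀ r : Fin (finrank E F) → E,
      (∑ i, algebraMap E F (r i) * θ i) ∈ O ↔ ∀ i, algebraMap E F (r i) ∈ O)
    (h : F) (hO : h ∈ O) : IsIntegral ↥(O.comap (algebraMap E F)) h := by
  classical
  have hli := H85.linearIndependent_of_orth O θ hnt horth
  have hsp : Submodule.span E (Set.range θ) = ⊤ :=
    hli.span_eq_top_of_card_eq_finrank' (by simp)
  let b : Basis (Fin (finrank E F)) E F := Basis.mk hli hsp.ge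
  have hb : ∀ i, b i = θ i := fun i => by simp [b]
  have hM : ∀ i j, algebraMap E F (Algebra.leftMulMatrix b h i j) ∈ O := by
    intro i j
    have h1 : h * θ j = ∑ i, algebraMap E F (Algebra.leftMulMatrix b h i j) * θ i := by
      have h2 := b.sum_repr (h * b j)
      rw [← hb j, ← h2]
      refine Finset.sum_congr rfl fun i _ => ?_
      rw [Algebra.leftMulMatrix_eq_repr_mul, Algebra.smul_def, hb, hb]
    have h3 : h * θ j ∈ O := O.mul_mem _ _ hO (H85.mem_of_orth O θ horth j)
    exact (horth fun i => Algebra.leftMulMatrix b h i j).1 (h1 ▸ h3) i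
  let M' : Matrix (Fin (finrank E F)) (Fin (finrank E F)) ↥(O.comap (algebraMap E F)) :=
    fun i j => ⟨Algebra.leftMulMatrix b h i j, hM i j⟩
  have hMM' : Algebra.leftMulMatrix b h = M'.map (algebraMap ↥(O.comap (algebraMap E F)) E) := by
    ext i j
    rfl
  have hchar : aeval h (Algebra.leftMulMatrix b h).charpoly = 0 := by
    have h1 := Matrix.aeval_self_charpoly (Algebra.leftMulMatrix b h)
    have h2 : Algebra.leftMulMatrix b (aeval h (Algebra.leftMulMatrix b h).charpoly) = 0 := by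
      rw [← Polynomial.aeval_algHom_apply]
      exact h1
    exact Algebra.leftMulMatrix_injective b (by rw [h2, map_zero])
  refine ⟨M'.charpoly, Matrix.charpoly_monic M', ?_⟩
  have h4 : M'.charpoly.map (algebraMap ↥(O.comap (algebraMap E F)) E)
      = (Algebra.leftMulMatrix b h).charpoly := by
    rw [hMM', Matrix.charpoly_map]
  rw [← hchar, ← h4, aeval_def, eval₂_map]
  rfl

end Comap

/-! ### Saturation -/

section Sat

variable {K : Type*} [Field K] {A : ValuationSubring K} {F : Type*} [Field F] [Algebra K F]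
  {O : ValuationSubring F} {x : F}

/-- Elements of `A[x]`, as values of polynomials with coefficients in `A`. -/
theorem aeval_mem_range_adjoin (q : K[X]) (hq : ∀ i, q.coeff i ∈ A) :
    aeval x q ∈ (algebraMap ↥(Algebra.adjoin ↥A ({x} : Set F)) F).range := by
  have hl : q ∈ Polynomial.lifts (algebraMap ↥A K) :=
    (Polynomial.lifts_iff_coeff_lifts _).2 fun n => ⟨⟨_, hq n⟩, rfl⟩
  obtain ⟨q', rfl⟩ := hl
  refine ⟨⟨aeval x q', ?_⟩, ?_⟩
  · rw [Algebra.adjoin_singleton_eq_range_aeval]
    exact ⟨q', rfl⟩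
  · show aeval x q' = aeval x (q'.map (algebraMap ↥A K))
    rw [aeval_map_algebraMap]

open scoped IntermediateField.algebraAdjoinAdjoin in
/-- **Saturation.** An element of `O` which is integral over `K[x]` is integral over `A[x]`. -/
theorem saturation (hx : Transcendental K x) [FiniteDimensional K⟮x⟯ F]
    (hm : MemHyp A O) (hg : GaussHyp A O x) (hA : ∃ a : K, a ∉ A)
    (θ : Fin (finrank K⟮x⟯ F) → F)
    (horth : ∀ r : Fin (finrank K⟮x⟯ F) → K⟮x⟯,
      (∑ i, (r i : F) * θ i) ∈ O ↔ ∀ i, (r i : F) ∈ O)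
    {h : F} (hO : h ∈ O) (hint : IsIntegral (Algebra.adjoin K ({x} : Set F)) h) :
    IsIntegral (Algebra.adjoin ↥A ({x} : Set F)) h := by
  have hnt : ∃ e : K⟮x⟯, algebraMap K⟮x⟯ F e ∉ O := by
    obtain ⟨a, ha⟩ := hA
    exact ⟨algebraMap K K⟮x⟯ a, fun h => ha ((hm a).1 h)⟩
  have h1 : IsIntegral ↥(O.comap (algebraMap K⟮x⟯ F)) h := isIntegral_comap O θ hnt horth h hO
  have e1 := minpoly.isIntegrallyClosed_eq_field_fractions' K⟮x⟯ h1
  have : UniqueFactorizationMonoid (Algebra.adjoin K ({x} : Set F)) :=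
    hx.uniqueFactorizationMonoid_adjoin
  have e2 := minpoly.isIntegrallyClosed_eq_field_fractions' K⟮x⟯ hint
  have hEint : IsIntegral K⟮x⟯ h := Algebra.IsIntegral.isIntegral h
  refine isIntegral_of_monic_of_coeff_mem ((minpoly K⟮x⟯ h).map (algebraMap K⟮x⟯ F))
    ((minpoly.monic hEint).map _) ?_ fun i => ?_
  · rw [eval_map]
    exact minpoly.aeval K⟮x⟯ h
  · rw [coeff_map]
    have hc1 : algebraMap K⟮x⟯ F ((minpoly K⟮x⟯ h).coeff i) ∈ O := by
      rw [e1, coeff_map]
      exact ((minpoly ↥(O.comap (algebraMap K⟮x⟯ F)) h).coeff i).2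
    obtain ⟨q, hq⟩ : ∃ q : K[X], aeval x q = algebraMap K⟮x⟯ F ((minpoly K⟮x⟯ h).coeff i) := by
      rw [e2, coeff_map]
      have h3 : (((minpoly (Algebra.adjoin K ({x} : Set F)) h).coeff i : Algebra.adjoin K ({x} : Set F))
          : F) ∈ (aeval (R := K) x).range := by
        rw [← Algebra.adjoin_singleton_eq_range_aeval]
        exact ((minpoly (Algebra.adjoin K ({x} : Set F)) h).coeff i).2
      obtain ⟨q, hq⟩ := h3
      exact ⟨q, hq⟩
    rw [← hq]
    exact aeval_mem_range_adjoin q (coeff_mem hx hm hg q (hq ▸ hc1))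

end Sat

end Fermat.Agent.S18.H6
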