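/-
S18 / wave 4, core 2, leaf K2-CH (helper6): the chart package, part CH-A.

Statements VERBATIM from helper19's `Core2.lean` (skeleton v2):
`chart_le`, `chart_sat`, `chart_mem_nonunits`, `chart_jbar`, `chart_oneUnit`.
-/
import Mathlib
import Fermat.Agent.S18.H19.Core2Defs
import Fermat.Agent.S18.H6.Sat

set_option autoImplicit false

open IntermediateField Polynomial Module

noncomputable section

namespace Fermat.Agent.S18.H6

open Fermat.Agent.S18.H19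

/-! ### `A₀[X] → K₀(x) → F₀` -/

section Poly

variable {A₀ : Type*} [CommRing A₀] {F₀ : Type*} [Field F₀] [Algebra A₀ F₀]

theorem aeval_mem_ratSub (x : F₀) (p : A₀[X]) : aeval x p ∈ ratSub A₀ x := by
  have hx : x ∈ ratSub A₀ x := Subfield.subset_closure (Set.mem_union_right _ rfl)
  have ha : ∀ a : A₀, algebraMap A₀ F₀ a ∈ ratSub A₀ x := fun a =>
    Subfield.subset_closure (Set.mem_union_left _ ⟨a, rfl⟩)
  induction p using Polynomial.induction_on' with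
  | add p q hp hq =>
    rw [map_add]
    exact (ratSub A₀ x).add_mem hp hq
  | monomial n a =>
    rw [aeval_monomial]
    exact (ratSub A₀ x).mul_mem (ha a) ((ratSub A₀ x).pow_mem hx n)

/-- `A₀[X] → K₀(x)`, `X ↦ x`. -/
def polyToRat (x : F₀) : A₀[X] →+* ↥(ratSub A₀ x) :=
  (aeval x : A₀[X] →ₐ[A₀] F₀).toRingHom.codRestrict (ratSub A₀ x) (aeval_mem_ratSub x)

theorem coe_polyToRat (x : F₀) (p : A₀[X]) : ((polyToRat x p : ↥(ratSub A₀ x)) : F₀) = aeval x p :=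
  rfl

/-- The `A₀[X]`-algebra structure of `K₀(x)` (`X ↦ x`). -/
@[reducible] def polyAlgE (x : F₀) : Algebra A₀[X] ↥(ratSub A₀ x) := (polyToRat x).toAlgebra

/-- The `A₀[X]`-algebra structure of `F₀` (`X ↦ x`). -/
@[reducible] def polyAlgF (x : F₀) : Algebra A₀[X] F₀ :=
  (aeval x : A₀[X] →ₐ[A₀] F₀).toRingHom.toAlgebra

theorem isScalarTower_poly (x : F₀) :
    letI := polyAlgE (A₀ := A₀) x
    letI := polyAlgF (A₀ := A₀) x
    IsScalarTower A₀[X] ↥(ratSub A₀ x) F₀ := by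
  letI := polyAlgE (A₀ := A₀) x
  letI := polyAlgF (A₀ := A₀) x
  exact IsScalarTower.of_algebraMap_eq fun p => rfl

theorem isFractionRing_poly {x : F₀} (hx : Transcendental A₀ x) :
    letI := polyAlgE (A₀ := A₀) x
    IsFractionRing A₀[X] ↥(ratSub A₀ x) := by
  letI := polyAlgE (A₀ := A₀) x
  haveI : FaithfulSMul A₀[X] ↥(ratSub A₀ x) := by
    rw [faithfulSMul_iff_algebraMap_injective]
    intro p q hpq
    have h1 : aeval x p = aeval x q := congrArg Subtype.val hpq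
    exact (transcendental_iff_injective.mp hx) h1
  refine IsFractionRing.of_field _ _ fun z => ?_
  obtain ⟨y, hy, w, hw, hz⟩ := Subfield.mem_closure_iff.mp z.2
  rw [← Algebra.adjoin_eq_ring_closure, Subalgebra.mem_toSubring,
    Algebra.adjoin_singleton_eq_range_aeval] at hy hw
  obtain ⟨p, rfl⟩ := hy
  obtain ⟨q, rfl⟩ := hw
  refine ⟨p, q, Subtype.ext ?_⟩
  rw [← hz]
  rfl

/-- Membership in the chart is integrality over `A₀[X]` (`X ↦ x`). -/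
theorem mem_chart_iff_poly (x : F₀) {y : F₀} :
    letI := polyAlgF (A₀ := A₀) x
    y ∈ chart A₀ x ↔ IsIntegral A₀[X] y := by
  letI := polyAlgF (A₀ := A₀) x
  rw [mem_chart_iff]
  constructor
  · refine isIntegral_of_range_le ?_
    rintro _ ⟨w, rfl⟩
    have h1 : (w : F₀) ∈ (aeval (R := A₀) x).range := by
      rw [← Algebra.adjoin_singleton_eq_range_aeval]
      exact w.2
    obtain ⟨p, hp⟩ := h1
    exact ⟨p, hp⟩
  · refine isIntegral_of_range_le ?_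
    rintro _ ⟨p, rfl⟩
    refine ⟨⟨aeval x p, ?_⟩, rfl⟩
    rw [Algebra.adjoin_singleton_eq_range_aeval]
    exact ⟨p, rfl⟩

end Poly

/-! ### First consequences of `DSetup` -/

section Basic

variable {A₀ : Type*} [CommRing A₀] [IsDomain A₀] [IsDiscreteValuationRing A₀]
  (ϖ : A₀) (hϖ : Irreducible ϖ)
  {F₀ : Type*} [Field F₀] [Algebra A₀ F₀] [FaithfulSMul A₀ F₀]
  (O₀ : ValuationSubring F₀) (x : F₀)

variable {O₀ x}

theorem algebraMap_mem (hS : DSetup A₀ O₀ x) (a : A₀) : algebraMap A₀ F₀ a ∈ O₀ := by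
  have h := (hS.mem_iff a 1 one_ne_zero).2 (one_dvd a)
  simpa using h

theorem x_mem (hS : DSetup A₀ O₀ x) : x ∈ O₀ := by
  have h := (hS.gauss X ⟨1, by simp⟩).1
  simpa using h

theorem aeval_mem' (hS : DSetup A₀ O₀ x) (p : A₀[X]) : aeval x p ∈ O₀ := by
  rw [aeval_eq_sum_range]
  refine O₀.toSubring.sum_mem fun i _ => ?_
  rw [Algebra.smul_def]
  exact O₀.mul_mem _ _ (algebraMap_mem hS _) (O₀.pow_mem (x_mem hS) i)

theorem isUnit_of_inv_mem (hS : DSetup A₀ O₀ x) {a : A₀} (ha0 : a ≠ 0)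
    (ha : (algebraMap A₀ F₀ a)⁻¹ ∈ O₀) : IsUnit a := by
  have h := (hS.mem_iff 1 a ha0).1 (by simpa using ha)
  exact isUnit_of_dvd_one h

include hϖ in
theorem irreducible_inv_notMem (hS : DSetup A₀ O₀ x) : (algebraMap A₀ F₀ ϖ)⁻¹ ∉ O₀ :=
  fun h => hϖ.not_isUnit (isUnit_of_inv_mem hS hϖ.ne_zero h)

include hϖ in
theorem isUnit_of_not_dvd {a : A₀} (ha : ¬ ϖ ∣ a) : IsUnit a := by
  by_contra h
  have h1 : a ∈ IsLocalRing.maximalIdeal A₀ := (IsLocalRing.mem_maximalIdeal a).2 h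
  rw [hϖ.maximalIdeal_eq, Ideal.mem_span_singleton] at h1
  exact ha h1

theorem algebraMap_ne_zero {a : A₀} (ha : a ≠ 0) : algebraMap A₀ F₀ a ≠ 0 := by
  rwa [Ne, FaithfulSMul.algebraMap_eq_zero_iff]

include hϖ in
/-- **Gauss.** `P(x) ∈ ϖ O₀` forces `ϖ ∣ P`. -/
theorem gauss_dvd (hS : DSetup A₀ O₀ x) (q : A₀[X]) (o : F₀) (ho : o ∈ O₀)
    (h : aeval x q = ϖ • o) : C ϖ ∣ q := by
  by_contra hnd
  rw [C_dvd_iff_dvd_coeff] at hnd
  push Not at hnd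
  obtain ⟨i, hi⟩ := hnd
  have hu : IsUnit (q.coeff i) := isUnit_of_not_dvd ϖ hϖ hi
  obtain ⟨-, h2⟩ := hS.gauss q ⟨i, hu⟩
  have hq0 : q ≠ 0 := fun h0 => hu.ne_zero (by rw [h0, coeff_zero])
  have hne : aeval x q ≠ 0 := fun h0 => hq0 ((transcendental_iff.mp hS.transc) q h0)
  have hϖ0 : algebraMap A₀ F₀ ϖ ≠ 0 := algebraMap_ne_zero hϖ.ne_zero
  refine irreducible_inv_notMem ϖ hϖ hS ?_
  have h3 : (algebraMap A₀ F₀ ϖ)⁻¹ = o * (aeval x q)⁻¹ := by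
    rw [h, Algebra.smul_def] at hne ⊢
    have ho0 : o ≠ 0 := right_ne_zero_of_mul hne
    field_simp
  rw [h3]
  exact O₀.mul_mem _ _ ho h2

include hϖ in
theorem gauss_dvd_pow (hS : DSetup A₀ O₀ x) (k : ℕ) (q : A₀[X]) (o : F₀) (ho : o ∈ O₀)
    (h : aeval x q = (ϖ ^ k) • o) : C (ϖ ^ k) ∣ q := by
  induction k generalizing q with
  | zero => simp
  | succ k ih =>
    have h1 : aeval x q = ϖ • ((ϖ ^ k) • o) := by
      rw [h, pow_succ', mul_smul]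
    have ho' : (ϖ ^ k) • o ∈ O₀ := by
      rw [Algebra.smul_def]
      exact O₀.mul_mem _ _ (algebraMap_mem hS _) ho
    obtain ⟨q₁, rfl⟩ := gauss_dvd ϖ hϖ hS q _ ho' h1
    have h2 : aeval x q₁ = (ϖ ^ k) • o := by
      rw [map_mul, aeval_C, Algebra.smul_def (ϖ) ((ϖ ^ k) • o)] at h1
      exact mul_left_cancel₀ (algebraMap_ne_zero hϖ.ne_zero) h1
    obtain ⟨q₂, rfl⟩ := ih q₁ h2
    exact ⟨q₂, by rw [pow_succ', C_mul, mul_assoc]⟩

/-- The chart lies in `O₀`. -/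
theorem chart_le' (hS : DSetup A₀ O₀ x) : ∀ c ∈ chart A₀ x, c ∈ O₀ := by
  intro c hc
  rw [mem_chart_iff] at hc
  have h1 : IsIntegral ↥O₀ c := by
    refine isIntegral_of_range_le ?_ hc
    rintro _ ⟨w, rfl⟩
    have h2 : (w : F₀) ∈ (aeval (R := A₀) x).range := by
      rw [← Algebra.adjoin_singleton_eq_range_aeval]
      exact w.2
    obtain ⟨p, hp⟩ := h2
    exact ⟨⟨aeval x p, aeval_mem' hS p⟩, hp⟩
  obtain ⟨y, hy⟩ := (IsIntegrallyClosed.isIntegral_iff (R := ↥O₀) (K := F₀)).1 h1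
  rw [← hy]
  exact y.2

include hϖ in
/-- `x̄` is transcendental over the residue field. -/
theorem chart_jbar' (hS : DSetup A₀ O₀ x) :
    ∀ P : A₀[X], (∃ c ∈ chart A₀ x, Polynomial.aeval x P = ϖ • c) → ∀ i, ϖ ∣ P.coeff i := by
  rintro P ⟨c, hc, hP⟩
  exact (C_dvd_iff_dvd_coeff _ _).1 (gauss_dvd ϖ hϖ hS P c (chart_le' hS c hc) hP)


include hϖ in
/-- Every element of `O₀` is integral over the Gauss ring `O₀ ∩ K₀(x)`. -/
theorem isIntegral_G (hS : DSetup A₀ O₀ x) (h : F₀) (hO : h ∈ O₀) :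
    IsIntegral ↥(O₀.comap (algebraMap ↥(ratSub A₀ x) F₀)) h := by
  haveI := hS.finite
  obtain ⟨θ, horth, -⟩ := hS.basis
  exact isIntegral_comap O₀ θ
    ⟨⟨(algebraMap A₀ F₀ ϖ)⁻¹, (ratSub A₀ x).inv_mem
      (Subfield.subset_closure (Set.mem_union_left _ ⟨ϖ, rfl⟩))⟩,
      irreducible_inv_notMem ϖ hϖ hS⟩ horth h hO

include hϖ in
/-- **Saturation** (the key point): `h ∈ O₀`, `ϖ h ∈ C` ⟹ `h ∈ C`. -/
theorem chart_sat' (hS : DSetup A₀ O₀ x) :
    ∀ h ∈ O₀, ϖ • h ∈ chart A₀ x → h ∈ chart A₀ x := by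
  intro h hO hc
  letI := polyAlgF (A₀ := A₀) x
  letI := polyAlgE (A₀ := A₀) x
  haveI : IsScalarTower A₀[X] ↥(ratSub A₀ x) F₀ := isScalarTower_poly x
  haveI : IsFractionRing A₀[X] ↥(ratSub A₀ x) := isFractionRing_poly hS.transc
  haveI := hS.finite
  have hc' : IsIntegral A₀[X] (ϖ • h) := (mem_chart_iff_poly x).1 hc
  have h1 := isIntegral_G ϖ hϖ hS h hO
  have e1 := minpoly.isIntegrallyClosed_eq_field_fractions' ↥(ratSub A₀ x) h1
  have e2 := minpoly.isIntegrallyClosed_eq_field_fractions' ↥(ratSub A₀ x) hc'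
  have hEint : IsIntegral ↥(ratSub A₀ x) h := Algebra.IsIntegral.isIntegral h
  have hϖEF : algebraMap ↥(ratSub A₀ x) F₀ (algebraMap A₀[X] ↥(ratSub A₀ x) (C ϖ))
      = algebraMap A₀ F₀ ϖ := by
    show aeval x (C ϖ) = _
    rw [aeval_C]
  have hϖE0 : algebraMap A₀[X] ↥(ratSub A₀ x) (C ϖ) ≠ 0 := by
    intro h0
    have h3 := congrArg (algebraMap ↥(ratSub A₀ x) F₀) h0
    rw [hϖEF, map_zero] at h3
    exact algebraMap_ne_zero hϖ.ne_zero h3
  have hsmul : ϖ • h = algebraMap ↥(ratSub A₀ x) F₀ (algebraMap A₀[X] ↥(ratSub A₀ x) (C ϖ)) * h := by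
    rw [hϖEF, Algebra.smul_def]
  have e3 : (minpoly ↥(ratSub A₀ x) h).scaleRoots (algebraMap A₀[X] ↥(ratSub A₀ x) (C ϖ))
      = minpoly ↥(ratSub A₀ x) (ϖ • h) := by
    refine minpoly.unique ↥(ratSub A₀ x) _ ((monic_scaleRoots_iff _).2 (minpoly.monic hEint)) ?_ ?_
    · rw [hsmul]
      exact scaleRoots_aeval_eq_zero (minpoly.aeval ↥(ratSub A₀ x) h)
    · intro q hq hq0
      have h5 : aeval h (q.scaleRoots (algebraMap A₀[X] ↥(ratSub A₀ x) (C ϖ))⁻¹) = 0 := by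
        have h4 := scaleRoots_aeval_eq_zero
          (r := (algebraMap A₀[X] ↥(ratSub A₀ x) (C ϖ))⁻¹) hq0
        rwa [hsmul, ← mul_assoc, ← map_mul, inv_mul_cancel₀ hϖE0, map_one, one_mul] at h4
      have h6 := minpoly.min ↥(ratSub A₀ x) h ((monic_scaleRoots_iff _).2 hq) h5
      rw [degree_scaleRoots] at h6 ⊢
      exact h6
  refine (mem_chart_iff_poly x).2 (isIntegral_of_monic_of_coeff_mem
    ((minpoly ↥(ratSub A₀ x) h).map (algebraMap ↥(ratSub A₀ x) F₀))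
    ((minpoly.monic hEint).map _) ?_ fun i => ?_)
  · rw [eval_map]
    exact minpoly.aeval ↥(ratSub A₀ x) h
  rw [coeff_map]
  have hc1 : algebraMap ↥(ratSub A₀ x) F₀ ((minpoly ↥(ratSub A₀ x) h).coeff i) ∈ O₀ := by
    rw [e1, coeff_map]
    exact ((minpoly ↥(O₀.comap (algebraMap ↥(ratSub A₀ x) F₀)) h).coeff i).2
  have hc2 : (minpoly ↥(ratSub A₀ x) h).coeff i *
      (algebraMap A₀[X] ↥(ratSub A₀ x) (C ϖ)) ^ ((minpoly ↥(ratSub A₀ x) h).natDegree - i)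
      = algebraMap A₀[X] ↥(ratSub A₀ x) ((minpoly A₀[X] (ϖ • h)).coeff i) := by
    rw [← coeff_scaleRoots, e3, e2, coeff_map]
  have hc3 : aeval x ((minpoly A₀[X] (ϖ • h)).coeff i)
      = (ϖ ^ ((minpoly ↥(ratSub A₀ x) h).natDegree - i)) •
        (algebraMap ↥(ratSub A₀ x) F₀ ((minpoly ↥(ratSub A₀ x) h).coeff i)) := by
    have h7 := congrArg (algebraMap ↥(ratSub A₀ x) F₀) hc2
    rw [map_mul, map_pow, hϖEF] at h7
    have h8 : ∀ (k : ℕ) (z : F₀), (ϖ ^ k) • z = z * algebraMap A₀ F₀ ϖ ^ k := fun k z => by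
      rw [Algebra.smul_def, map_pow, mul_comm]
    rw [h8]
    exact h7.symm
  obtain ⟨q', hq'⟩ := gauss_dvd_pow ϖ hϖ hS _ _ _ hc1 hc3
  refine ⟨q', ?_⟩
  rw [hq', map_mul, aeval_C, Algebra.smul_def] at hc3
  exact mul_left_cancel₀ (algebraMap_ne_zero (pow_ne_zero _ hϖ.ne_zero)) hc3

include hϖ in
theorem chart_sat_pow (hS : DSetup A₀ O₀ x) (k : ℕ) :
    ∀ h ∈ O₀, (ϖ ^ k) • h ∈ chart A₀ x → h ∈ chart A₀ x := by
  induction k with
  | zero => intro h _ hc; simpa using hc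
  | succ k ih =>
    intro h hO hc
    refine ih h hO (chart_sat' ϖ hϖ hS _ ?_ ?_)
    · rw [Algebra.smul_def]
      exact O₀.mul_mem _ _ (algebraMap_mem hS _) hO
    · rwa [← mul_smul, ← pow_succ']

include hϖ in
/-- `C ∩ 𝔪_{O₀} = ϖ C`. -/
theorem chart_mem_nonunits' (hS : DSetup A₀ O₀ x) :
    ∀ c ∈ chart A₀ x, c ∈ O₀.nonunits → ∃ c' ∈ chart A₀ x, c = ϖ • c' := by
  intro c hc hcn
  by_cases hc0 : c = 0
  · exact ⟨0, (chart A₀ x).zero_mem, by rw [hc0, smul_zero]⟩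
  obtain ⟨a, b, ha, hb, h1, h2⟩ := hS.scale c hc0
  obtain ⟨i, ua, rfl⟩ := IsDiscreteValuationRing.eq_unit_mul_pow_irreducible ha hϖ
  obtain ⟨j, ub, rfl⟩ := IsDiscreteValuationRing.eq_unit_mul_pow_irreducible hb hϖ
  have hϖ0 : algebraMap A₀ F₀ ϖ ≠ 0 := algebraMap_ne_zero hϖ.ne_zero
  have hua0 : algebraMap A₀ F₀ (ua : A₀) ≠ 0 := algebraMap_ne_zero ua.ne_zero
  have hub0 : algebraMap A₀ F₀ (ub : A₀) ≠ 0 := algebraMap_ne_zero ub.ne_zero
  have huainv : algebraMap A₀ F₀ ((ua⁻¹ : A₀ˣ) : A₀) = (algebraMap A₀ F₀ (ua : A₀))⁻¹ := by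
    refine eq_inv_of_mul_eq_one_left ?_
    rw [← map_mul, Units.inv_mul, map_one]
  have hubinv : algebraMap A₀ F₀ ((ub⁻¹ : A₀ˣ) : A₀) = (algebraMap A₀ F₀ (ub : A₀))⁻¹ := by
    refine eq_inv_of_mul_eq_one_left ?_
    rw [← map_mul, Units.inv_mul, map_one]
  rcases Nat.lt_or_ge i j with hij | hij
  · -- `c / ϖ ∈ O₀`
    obtain ⟨d, rfl⟩ := Nat.exists_eq_add_of_lt hij
    have hmem : (algebraMap A₀ F₀ ϖ)⁻¹ * c ∈ O₀ := by
      have h3 : (algebraMap A₀ F₀ ϖ)⁻¹ * c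
          = (algebraMap A₀ F₀ (↑ua * ϖ ^ i) / algebraMap A₀ F₀ (↑ub * ϖ ^ (i + d + 1)) * c) *
            (algebraMap A₀ F₀ (ub : A₀) * algebraMap A₀ F₀ ((ua⁻¹ : A₀ˣ) : A₀) *
              algebraMap A₀ F₀ (ϖ ^ d)) := by
        rw [huainv]
        simp only [map_mul, map_pow]
        field_simp
        ring
      rw [h3]
      exact O₀.mul_mem _ _ h1 (O₀.mul_mem _ _ (O₀.mul_mem _ _ (algebraMap_mem hS _)
        (algebraMap_mem hS _)) (algebraMap_mem hS _))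
    refine ⟨(algebraMap A₀ F₀ ϖ)⁻¹ * c, chart_sat' ϖ hϖ hS _ hmem ?_, ?_⟩
    · rw [Algebra.smul_def, mul_inv_cancel_left₀ hϖ0]
      exact hc
    · rw [Algebra.smul_def, mul_inv_cancel_left₀ hϖ0]
  · -- `c⁻¹ ∈ O₀`: impossible
    exfalso
    obtain ⟨d, rfl⟩ := Nat.exists_eq_add_of_le hij
    have hmem : c⁻¹ ∈ O₀ := by
      have h3 : c⁻¹
          = (algebraMap A₀ F₀ (↑ua * ϖ ^ (j + d)) / algebraMap A₀ F₀ (↑ub * ϖ ^ j) * c)⁻¹ *
            (algebraMap A₀ F₀ (ua : A₀) * algebraMap A₀ F₀ ((ub⁻¹ : A₀ˣ) : A₀) *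
              algebraMap A₀ F₀ (ϖ ^ d)) := by
        rw [hubinv]
        simp only [map_mul, map_pow]
        field_simp
        ring
      rw [h3]
      exact O₀.mul_mem _ _ h2 (O₀.mul_mem _ _ (O₀.mul_mem _ _ (algebraMap_mem hS _)
        (algebraMap_mem hS _)) (algebraMap_mem hS _))
    have h4 := H85.nonunits_mul_mem O₀ hcn hmem
    rw [mul_inv_cancel₀ hc0, ValuationSubring.mem_nonunits_iff, map_one] at h4
    exact lt_irrefl _ h4

include hϖ in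
/-- Extraction of the content: a nonzero polynomial is `ϖ ^ k` times a polynomial with a unit
coefficient. -/
theorem exists_eq_C_pow_mul (e : A₀[X]) (he : e ≠ 0) :
    ∃ (k : ℕ) (d : A₀[X]), e = C (ϖ ^ k) * d ∧ ∃ i, IsUnit (d.coeff i) := by
  have key : ∀ n : ℕ, ∀ e : A₀[X], e ≠ 0 → ¬ ϖ ^ (n + 1) ∣ e.leadingCoeff →
      ∃ (k : ℕ) (d : A₀[X]), e = C (ϖ ^ k) * d ∧ ∃ i, IsUnit (d.coeff i) := by
    intro n
    induction n with
    | zero =>
      intro e _ hn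
      rw [zero_add, pow_one] at hn
      exact ⟨0, e, by simp, e.natDegree, isUnit_of_not_dvd ϖ hϖ hn⟩
    | succ n ih =>
      intro e he hn
      by_cases hu : ∃ i, ¬ ϖ ∣ e.coeff i
      · obtain ⟨i, hi⟩ := hu
        exact ⟨0, e, by simp, i, isUnit_of_not_dvd ϖ hϖ hi⟩
      · push Not at hu
        obtain ⟨e₁, rfl⟩ := (C_dvd_iff_dvd_coeff ϖ e).2 hu
        have he₁ : e₁ ≠ 0 := right_ne_zero_of_mul he
        have hn₁ : ¬ ϖ ^ (n + 1) ∣ e₁.leadingCoeff := by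
          intro hd
          apply hn
          rw [leadingCoeff_mul, leadingCoeff_C, pow_succ']
          exact mul_dvd_mul_left ϖ hd
        obtain ⟨k, d, hd, hi⟩ := ih e₁ he₁ hn₁
        exact ⟨k + 1, d, by rw [hd, pow_succ', C_mul, mul_assoc], hi⟩
  have hlc : e.leadingCoeff ≠ 0 := leadingCoeff_ne_zero.mpr he
  obtain ⟨n, u, hu⟩ := IsDiscreteValuationRing.eq_unit_mul_pow_irreducible hlc hϖ
  refine key n e he ?_
  rw [hu]
  rintro ⟨w, hw⟩
  have h1 : (u : A₀) * ϖ ^ n * 1 = (u : A₀) * ϖ ^ n * (ϖ * (↑u⁻¹ * w)) := by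
    calc (u : A₀) * ϖ ^ n * 1 = ϖ ^ (n + 1) * w := by rw [mul_one, hw]
      _ = (u : A₀) * ϖ ^ n * (ϖ * (↑u⁻¹ * w)) := by
        rw [pow_succ]
        have h2 : (u : A₀) * ↑u⁻¹ = 1 := Units.mul_inv u
        calc ϖ ^ n * ϖ * w = ((u : A₀) * ↑u⁻¹) * (ϖ ^ n * ϖ * w) := by rw [h2, one_mul]
          _ = _ := by ring
  have h3 := mul_left_cancel₀ (mul_ne_zero u.ne_zero (pow_ne_zero n hϖ.ne_zero)) h1
  exact hϖ.not_isUnit (isUnit_of_dvd_one ⟨_, h3⟩)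

include hϖ in
/-- Gauss-unit denominators: every element of `O₀` becomes an element of the chart after
multiplication by a polynomial in `x` with a unit coefficient. -/
theorem exists_gaussUnit_mul_mem (hS : DSetup A₀ O₀ x) (y : F₀) (hy : y ∈ O₀) :
    ∃ d : A₀[X], (∃ i, IsUnit (d.coeff i)) ∧ aeval x d * y ∈ chart A₀ x := by
  letI := polyAlgF (A₀ := A₀) x
  letI := polyAlgE (A₀ := A₀) x
  haveI : IsScalarTower A₀[X] ↥(ratSub A₀ x) F₀ := isScalarTower_poly x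
  haveI : IsFractionRing A₀[X] ↥(ratSub A₀ x) := isFractionRing_poly hS.transc
  haveI := hS.finite
  have halg : IsAlgebraic A₀[X] y :=
    (IsFractionRing.isAlgebraic_iff A₀[X] ↥(ratSub A₀ x) F₀).2
      (Algebra.IsAlgebraic.isAlgebraic y)
  obtain ⟨e, he0, he⟩ := halg.exists_integral_multiple
  obtain ⟨k, d, hd, hu⟩ := exists_eq_C_pow_mul ϖ hϖ e he0
  refine ⟨d, hu, chart_sat_pow ϖ hϖ hS k _ (O₀.mul_mem _ _ (aeval_mem' hS d) hy) ?_⟩
  rw [mem_chart_iff_poly]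
  have h1 : (ϖ ^ k) • (aeval x d * y) = e • y := by
    rw [hd, Algebra.smul_def, Algebra.smul_def]
    show _ = aeval x (C (ϖ ^ k) * d) * y
    rw [map_mul, aeval_C, mul_assoc]
  rw [h1]
  exact he

include hϖ in
/-- A one-unit of `O₀` is a quotient of two congruent elements of the chart. -/
theorem chart_oneUnit' (hS : DSetup A₀ O₀ x) (u : F₀) (hu : u - 1 ∈ O₀.nonunits) :
    ∃ a ∈ chart A₀ x, ∃ b ∈ chart A₀ x, (¬ ∃ c ∈ chart A₀ x, b = ϖ • c) ∧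
      (∃ c ∈ chart A₀ x, a - b = ϖ • c) ∧ u * b = a := by
  have huO : u ∈ O₀ := by
    have h1 : u = (u - 1) + 1 := by ring
    rw [h1]
    exact O₀.add_mem _ _ (O₀.nonunits_subset hu) O₀.one_mem
  obtain ⟨d, hd, hdu⟩ := exists_gaussUnit_mul_mem ϖ hϖ hS u huO
  have hb : aeval x d ∈ chart A₀ x := by
    rw [mem_chart_iff]
    exact isIntegral_algebraMap (x := (⟨aeval x d, by
      rw [Algebra.adjoin_singleton_eq_range_aeval]; exact ⟨d, rfl⟩⟩ : Algebra.adjoin A₀ {x}))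
  obtain ⟨hd1, hd2⟩ := hS.gauss d hd
  refine ⟨aeval x d * u, hdu, aeval x d, hb, ?_, ?_, mul_comm _ _⟩
  · rintro ⟨c, hc, hbc⟩
    -- `ϖ` would be a unit of `O₀`
    refine irreducible_inv_notMem ϖ hϖ hS ?_
    have hd0 : aeval x d ≠ 0 := by
      obtain ⟨i, hi⟩ := hd
      intro h0
      have := (transcendental_iff.mp hS.transc) d h0
      rw [this, coeff_zero] at hi
      exact not_isUnit_zero hi
    have h3 : (algebraMap A₀ F₀ ϖ)⁻¹ = c * (aeval x d)⁻¹ := by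
      rw [hbc, Algebra.smul_def] at hd0 ⊢
      have hc0 : c ≠ 0 := right_ne_zero_of_mul hd0
      have hϖ0 : algebraMap A₀ F₀ ϖ ≠ 0 := algebraMap_ne_zero hϖ.ne_zero
      field_simp
    rw [h3]
    exact O₀.mul_mem _ _ (chart_le' hS c hc) hd2
  · refine chart_mem_nonunits' ϖ hϖ hS _ ((chart A₀ x).sub_mem hdu hb) ?_
    have h4 : aeval x d * u - aeval x d = (u - 1) * aeval x d := by ring
    rw [h4]
    exact H85.nonunits_mul_mem O₀ hu hd1

end Basic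

/-! ### The five CH-A leaves, VERBATIM as in `H19/Core2.lean` (skeleton v2.2) -/

section Verbatim

variable {A₀ : Type*} [CommRing A₀] [IsDomain A₀] [IsDiscreteValuationRing A₀] [CharZero A₀]
  (ϖ : A₀) (hϖ : Irreducible ϖ)
  {F₀ : Type*} [Field F₀] [Algebra A₀ F₀] [FaithfulSMul A₀ F₀]
  (O₀ : ValuationSubring F₀) (x : F₀)

include hϖ

omit hϖ in
/-- CH-A: the chart lies in `O₀`. -/
theorem chart_le (hS : DSetup A₀ O₀ x) : ∀ c ∈ chart A₀ x, c ∈ O₀ :=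
  chart_le' hS

/-- CH-A (saturation, the key point): an element of `O₀` which is integral over `K₀[x]` is
integral over `A₀[x]`. -/
theorem chart_sat (hS : DSetup A₀ O₀ x) :
    ∀ h ∈ O₀, ϖ • h ∈ chart A₀ x → h ∈ chart A₀ x :=
  chart_sat' ϖ hϖ hS

/-- CH-A: `C ∩ 𝔪_{O₀} = ϖ C` (from `chart_sat` and `DSetup.scale`). -/
theorem chart_mem_nonunits (hS : DSetup A₀ O₀ x) :
    ∀ c ∈ chart A₀ x, c ∈ O₀.nonunits → ∃ c' ∈ chart A₀ x, c = ϖ • c' :=
  chart_mem_nonunits' ϖ hϖ hS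

/-- CH-A: `x̄` is transcendental over the residue field. -/
theorem chart_jbar (hS : DSetup A₀ O₀ x) :
    ∀ P : A₀[X], (∃ c ∈ chart A₀ x, Polynomial.aeval x P = ϖ • c) → ∀ i, ϖ ∣ P.coeff i :=
  chart_jbar' ϖ hϖ hS

/-- CH-A: a one-unit of `O₀` is a quotient of two congruent elements of the chart. -/
theorem chart_oneUnit (hS : DSetup A₀ O₀ x) (u : F₀) (hu : u - 1 ∈ O₀.nonunits) :
    ∃ a ∈ chart A₀ x, ∃ b ∈ chart A₀ x, (¬ ∃ c ∈ chart A₀ x, b = ϖ • c) ∧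
      (∃ c ∈ chart A₀ x, a - b = ϖ • c) ∧ u * b = a :=
  chart_oneUnit' ϖ hϖ hS u hu

end Verbatim

end Fermat.Agent.S18.H6
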