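/-
S18 / wave 4, core 2, leaf K2-CH-B (helper6, backup copy of task 224): `chart_sep`.

Statement VERBATIM from helper19's `Core2.lean` (skeleton v2.2): an element of the chart all of
whose traces against the chart are divisible by `ϖ` is divisible by `ϖ` (separability of the
special fibre, from the unit Gram determinant of the orthonormal basis).
-/
import Mathlib
import Fermat.Agent.S18.H6.ChartA

set_option autoImplicit false

open IntermediateField Polynomial Module

noncomputable section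

namespace Fermat.Agent.S18.H6

open Fermat.Agent.S18.H19

section Gram

variable {E F : Type*} [Field E] [Field F] [Algebra E F] (O : ValuationSubring F)

/-- The matrix of multiplication by `h ∈ O` in an orthonormal basis has entries in `O`. -/
theorem leftMulMatrix_mem_of_orth {ι : Type*} [Fintype ι] [DecidableEq ι] (b : Basis ι E F)
    (hbO : ∀ i, b i ∈ O)
    (horth : ∀ r : ι → E, (∑ i, algebraMap E F (r i) * b i) ∈ O → ∀ i, algebraMap E F (r i) ∈ O)
    (h : F) (hO : h ∈ O) (i j : ι) : algebraMap E F (Algebra.leftMulMatrix b h i j) ∈ O := by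
  have h1 : h * b j = ∑ i, algebraMap E F (Algebra.leftMulMatrix b h i j) * b i := by
    have h2 := b.sum_repr (h * b j)
    rw [← h2]
    refine Finset.sum_congr rfl fun i _ => ?_
    rw [Algebra.leftMulMatrix_eq_repr_mul, Algebra.smul_def]
  have h3 : h * b j ∈ O := O.mul_mem _ _ hO (hbO j)
  exact horth (fun i => Algebra.leftMulMatrix b h i j) (h1 ▸ h3) i

/-- The trace of an element of `O` lies in `O ∩ E`. -/
theorem trace_mem_of_orth {ι : Type*} [Fintype ι] [DecidableEq ι] (b : Basis ι E F)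
    (hbO : ∀ i, b i ∈ O)
    (horth : ∀ r : ι → E, (∑ i, algebraMap E F (r i) * b i) ∈ O → ∀ i, algebraMap E F (r i) ∈ O)
    (h : F) (hO : h ∈ O) : algebraMap E F (Algebra.trace E F h) ∈ O := by
  rw [Algebra.trace_eq_matrix_trace b, Matrix.trace, map_sum]
  refine Finset.sum_induction _ (fun y => y ∈ O) (fun a c ha hc => O.add_mem _ _ ha hc) O.zero_mem
    fun i _ => ?_
  exact leftMulMatrix_mem_of_orth O b hbO horth h hO i i

end Gram

section Sep

variable {A₀ : Type*} [CommRing A₀] [IsDomain A₀] [IsDiscreteValuationRing A₀] [CharZero A₀]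
  (ϖ : A₀) (hϖ : Irreducible ϖ)
  {F₀ : Type*} [Field F₀] [Algebra A₀ F₀] [FaithfulSMul A₀ F₀]
  (O₀ : ValuationSubring F₀) (x : F₀)

include hϖ

/-- CH-B (separability of the special fibre, from the unit Gram determinant). -/
theorem chart_sep (hS : DSetup A₀ O₀ x) :
    ∀ c ∈ chart A₀ x,
      (∀ c' ∈ chart A₀ x, ∃ q : A₀[X],
        ((Algebra.trace (ratSub A₀ x) F₀ (c * c') : ratSub A₀ x) : F₀) =
          Polynomial.aeval x (Polynomial.C ϖ * q)) →
      ∃ c'' ∈ chart A₀ x, c = ϖ • c'' := by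
  classical
  intro c hc htr
  haveI := hS.finite
  haveI : CharZero F₀ := charZero_of_injective_algebraMap (FaithfulSMul.algebraMap_injective A₀ F₀)
  obtain ⟨θ, horth, hgram⟩ := hS.basis
  have hnt : ∃ e : ↥(ratSub A₀ x), algebraMap ↥(ratSub A₀ x) F₀ e ∉ O₀ :=
    ⟨⟨(algebraMap A₀ F₀ ϖ)⁻¹, (ratSub A₀ x).inv_mem
      (Subfield.subset_closure (Set.mem_union_left _ ⟨ϖ, rfl⟩))⟩,
      irreducible_inv_notMem ϖ hϖ hS⟩
  have hli := H85.linearIndependent_of_orth O₀ θ hnt horth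
  have hsp : Submodule.span ↥(ratSub A₀ x) (Set.range θ) = ⊤ :=
    hli.span_eq_top_of_card_eq_finrank' (by simp)
  let b : Basis (Fin (finrank ↥(ratSub A₀ x) F₀)) ↥(ratSub A₀ x) F₀ := Basis.mk hli hsp.ge
  have hb : ∀ i, b i = θ i := fun i => by simp [b]
  have hθO : ∀ i, θ i ∈ O₀ := H85.mem_of_orth O₀ θ horth
  have hbO : ∀ i, b i ∈ O₀ := fun i => by rw [hb]; exact hθO i
  have horth' : ∀ r : Fin (finrank ↥(ratSub A₀ x) F₀) → ↥(ratSub A₀ x),
      (∑ i, algebraMap ↥(ratSub A₀ x) F₀ (r i) * b i) ∈ O₀ →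
        ∀ i, algebraMap ↥(ratSub A₀ x) F₀ (r i) ∈ O₀ := by
    intro r hr
    refine (horth r).1 ?_
    have h1 : (∑ i, algebraMap ↥(ratSub A₀ x) F₀ (r i) * b i) = ∑ i, (r i : F₀) * θ i :=
      Finset.sum_congr rfl fun i _ => by rw [hb]; rfl
    rwa [← h1]
  -- the Gauss ring and the Gram matrix
  have hTmem : ∀ i j, algebraMap ↥(ratSub A₀ x) F₀
      (Algebra.traceMatrix ↥(ratSub A₀ x) b i j) ∈ O₀ := by
    intro i j
    rw [Algebra.traceMatrix_apply, Algebra.traceForm_apply]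
    exact trace_mem_of_orth O₀ b hbO horth' _ (O₀.mul_mem _ _ (hbO i) (hbO j))
  have hTdet : (Algebra.traceMatrix ↥(ratSub A₀ x) b).det ≠ 0 := by
    rw [Algebra.traceMatrix_of_basis]
    exact det_traceForm_ne_zero b
  have hTdetinv : algebraMap ↥(ratSub A₀ x) F₀
      ((Algebra.traceMatrix ↥(ratSub A₀ x) b).det)⁻¹ ∈ O₀ := by
    have h1 : Algebra.traceMatrix ↥(ratSub A₀ x) b
        = Matrix.of fun i j => Algebra.trace ↥(ratSub A₀ x) F₀ (θ i * θ j) := by
      ext i j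
      rw [Algebra.traceMatrix_apply, Algebra.traceForm_apply, hb, hb]
      rfl
    rw [h1, map_inv₀]
    exact hgram
  -- entries of the inverse Gram matrix
  have hadj : ∀ i j, algebraMap ↥(ratSub A₀ x) F₀
      ((Algebra.traceMatrix ↥(ratSub A₀ x) b).adjugate i j) ∈ O₀ := by
    intro i j
    let T' : Matrix (Fin (finrank ↥(ratSub A₀ x) F₀)) (Fin (finrank ↥(ratSub A₀ x) F₀))
        ↥(O₀.comap (algebraMap ↥(ratSub A₀ x) F₀)) :=
      fun i j => ⟨Algebra.traceMatrix ↥(ratSub A₀ x) b i j, hTmem i j⟩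
    have h1 : Algebra.traceMatrix ↥(ratSub A₀ x) b
        = (O₀.comap (algebraMap ↥(ratSub A₀ x) F₀)).subtype.mapMatrix T' := by
      ext i j
      rfl
    rw [h1, ← RingHom.map_adjugate]
    exact (T'.adjugate i j).2
  have hinv : ∀ i j, algebraMap ↥(ratSub A₀ x) F₀
      ((Algebra.traceMatrix ↥(ratSub A₀ x) b)⁻¹ i j) ∈ O₀ := by
    intro i j
    rw [Matrix.inv_def, Ring.inverse_eq_inv', Matrix.smul_apply, smul_eq_mul, map_mul]
    exact O₀.mul_mem _ _ hTdetinv (hadj i j)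
  -- Gauss-unit multiples of the basis in the chart, and the trace hypothesis
  have hd : ∀ j, ∃ d : A₀[X], (∃ i, IsUnit (d.coeff i)) ∧ aeval x d * θ j ∈ chart A₀ x :=
    fun j => exists_gaussUnit_mul_mem ϖ hϖ hS (θ j) (hθO j)
  choose d hdu hdC using hd
  have hq : ∀ j, ∃ q : A₀[X],
      ((Algebra.trace (ratSub A₀ x) F₀ (c * (aeval x (d j) * θ j)) : ratSub A₀ x) : F₀) =
        Polynomial.aeval x (Polynomial.C ϖ * q) := fun j => htr _ (hdC j)
  choose q hq using hq
  -- `s j := Tr (c θ_j) = ϖ * w j` with `w j ∈ O₀ ∩ E`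
  have hs : ∀ j, algebraMap ↥(ratSub A₀ x) F₀ (Algebra.trace ↥(ratSub A₀ x) F₀ (c * b j))
      = algebraMap A₀ F₀ ϖ * (aeval x (q j) * (aeval x (d j))⁻¹) := by
    intro j
    have h1 : c * (aeval x (d j) * θ j) = (polyToRat x (d j) : ↥(ratSub A₀ x)) • (c * b j) := by
      rw [Algebra.smul_def, hb]
      show _ = aeval x (d j) * (c * θ j)
      ring
    have h2 := hq j
    rw [h1, map_smul, smul_eq_mul] at h2
    have h3 : aeval x (d j) * algebraMap ↥(ratSub A₀ x) F₀
        (Algebra.trace ↥(ratSub A₀ x) F₀ (c * b j)) = algebraMap A₀ F₀ ϖ * aeval x (q j) := by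
      rw [← aeval_C (R := A₀) x ϖ, ← map_mul]
      exact h2
    have hd0 : aeval x (d j) ≠ 0 := by
      obtain ⟨i, hi⟩ := hdu j
      intro h0
      have h4 := (transcendental_iff.mp hS.transc) (d j) h0
      rw [h4, coeff_zero] at hi
      exact not_isUnit_zero hi
    rw [mul_comm (aeval x (q j)), ← mul_assoc, mul_comm (algebraMap A₀ F₀ ϖ), mul_assoc,
      ← h3, ← mul_assoc, inv_mul_cancel₀ hd0, one_mul]
  have hw : ∀ j, aeval x (q j) * (aeval x (d j))⁻¹ ∈ O₀ := fun j =>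
    O₀.mul_mem _ _ (aeval_mem' hS (q j)) (hS.gauss (d j) (hdu j)).2
  -- coordinates of `c`
  have hmv := Algebra.traceMatrix_of_basis_mulVec b c
  have hr : b.equivFun c = ((Algebra.traceMatrix ↥(ratSub A₀ x) b)⁻¹).mulVec
      fun j => Algebra.trace ↥(ratSub A₀ x) F₀ (c * b j) := by
    rw [← hmv, Matrix.mulVec_mulVec,
      Matrix.nonsing_inv_mul _ (isUnit_iff_ne_zero.mpr hTdet), Matrix.one_mulVec]
  -- the quotient `h = c / ϖ`
  have hcoord : ∀ i, algebraMap ↥(ratSub A₀ x) F₀ (b.equivFun c i)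
      = algebraMap A₀ F₀ ϖ * ∑ j, algebraMap ↥(ratSub A₀ x) F₀
          ((Algebra.traceMatrix ↥(ratSub A₀ x) b)⁻¹ i j) * (aeval x (q j) * (aeval x (d j))⁻¹) := by
    intro i
    rw [hr, Matrix.mulVec, dotProduct, map_sum, Finset.mul_sum]
    refine Finset.sum_congr rfl fun j _ => ?_
    rw [map_mul, hs]
    ring
  have hcoordO : ∀ i, (∑ j, algebraMap ↥(ratSub A₀ x) F₀
      ((Algebra.traceMatrix ↥(ratSub A₀ x) b)⁻¹ i j) * (aeval x (q j) * (aeval x (d j))⁻¹)) ∈ O₀ :=
    fun i => Finset.sum_induction _ (fun y => y ∈ O₀) (fun a c ha hc => O₀.add_mem _ _ ha hc)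
      O₀.zero_mem fun j _ => O₀.mul_mem _ _ (hinv i j) (hw j)
  have hceq : c = ϖ • ∑ i, (∑ j, algebraMap ↥(ratSub A₀ x) F₀
      ((Algebra.traceMatrix ↥(ratSub A₀ x) b)⁻¹ i j) * (aeval x (q j) * (aeval x (d j))⁻¹)) * θ i := by
    conv_lhs => rw [← b.sum_equivFun c]
    rw [Algebra.smul_def, Finset.mul_sum]
    refine Finset.sum_congr rfl fun i _ => ?_
    rw [Algebra.smul_def, hcoord, hb]
    ring
  refine ⟨_, chart_sat' ϖ hϖ hS _ ?_ (hceq ▸ hc), hceq⟩
  exact Finset.sum_induction _ (fun y => y ∈ O₀) (fun a c ha hc => O₀.add_mem _ _ ha hc)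
    O₀.zero_mem fun i _ => O₀.mul_mem _ _ (hcoordO i) (hθO i)

end Sep

end Fermat.Agent.S18.H6
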